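import Mathlib
import Fermat.Prelude.Def_GaloisRep_Adic

/-!
# S31, pure-algebra core

* `span_range_eq_top_of_irreducible` : Burnside's theorem (algebraically closed field).
* `span_eq_top_of_map`, `span_eq_top_of_residue`, `eq_zero_of_trace_mul_span` : matrix lemmas
  (descent of the span along a field extension, Nakayama, nondegeneracy of the trace form).
* `eq_zero_of_trace_mul_eq_zero` : over a local ring, an endomorphism which is trace-orthogonal
  to a residually absolutely irreducible family is zero.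
* `eq_one_of_trace_mul_eq` / `galoisRepAdic_eq_one_of_trace` : the form used for S31.
* `lucas`, `trace_pow_eq_aeval_lucas`, `aeval_lucas_apply` : Lucas polynomials `V_j(X, d)`, the
  trace of the `j`-th power of a rank-2 endomorphism, and `V_j(t, d) = σ^j + d^j σ^{-j}`.
* `trace_mem_of_forall_mem_smul_top`, `eq_zero_of_forall_mem_pow`, `exists_pow_smul_mem` :
  congruences of traces, separatedness, bounded denominators of a lattice.
-/

set_option autoImplicit false

open scoped TensorProduct
open Polynomial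

namespace Fermat.Agent.S31.Alg

section Burnside

variable {K W G : Type*} [Field K] [IsAlgClosed K] [AddCommGroup W] [Module K W]
  [FiniteDimensional K W] [Monoid G]

/-- **Burnside's theorem**: an irreducible finite-dimensional representation over an algebraically
closed field spans the whole endomorphism algebra. -/
theorem span_range_eq_top_of_irreducible [Nontrivial W] (ρ : G →* Module.End K W)
    (hirr : ∀ U : Submodule K W, (∀ g, ∀ x ∈ U, ρ g x ∈ U) → U = ⊥ ∨ U = ⊤) :
    Submodule.span K (Set.range ρ) = ⊤ := by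
  classical
  set A : Subalgebra K (Module.End K W) := Algebra.adjoin K (Set.range ρ) with hA
  have hAspan : Subalgebra.toSubmodule A = Submodule.span K (Set.range ρ) := by
    rw [hA, Algebra.adjoin_eq_span, ← MonoidHom.coe_mrange, Submonoid.closure_eq]
  have hmem : ∀ g, ρ g ∈ A := fun g => Algebra.subset_adjoin ⟨g, rfl⟩
  -- `W` is a simple `A`-module
  have : IsSimpleModule A W := by
    rw [isSimpleModule_iff]
    refine { exists_pair_ne := ⟨⊥, ⊤, bot_ne_top⟩, eq_bot_or_eq_top := fun U => ?_ }
    rcases hirr (U.restrictScalars K) (fun g x hx => by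
      have : (⟨ρ g, hmem g⟩ : A) • x ∈ U := U.smul_mem _ hx
      exact this) with h | h
    · left
      exact (Submodule.restrictScalars_eq_bot_iff K A W).1 h
    · right
      exact (Submodule.restrictScalars_eq_top_iff K A W).1 h
  have hschur := IsSimpleModule.algebraMap_end_bijective_of_isAlgClosed (A := A) (V := W) K
  rw [← hAspan, eq_top_iff]
  intro b _
  -- `b` is linear over `End_A W = K`
  let f : Module.End (Module.End A W) W :=
    { toFun := b
      map_add' := b.map_add
      map_smul' := fun φ w => by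
        obtain ⟨c, rfl⟩ := hschur.2 φ
        simp }
  let bas := Module.finBasis K W
  obtain ⟨r, hr⟩ := jacobson_density f (Finset.univ.image bas)
  have : b = (r : Module.End K W) := by
    refine bas.ext fun i => ?_
    have := hr (bas i) (Finset.mem_image_of_mem _ (Finset.mem_univ i))
    exact this
  rw [this]
  exact r.2

end Burnside

section Matrices

/-- Descent of "the family spans all matrices" along a field extension. -/
theorem span_eq_top_of_map {k K : Type*} [Field k] [Field K] [Algebra k K] {ι : Type*}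
    [Fintype ι] [DecidableEq ι] {G : Type*} (M : G → Matrix ι ι k)
    (h : Submodule.span K (Set.range fun g => (M g).map (algebraMap k K)) = ⊤) :
    Submodule.span k (Set.range M) = ⊤ := by
  by_contra hne
  obtain ⟨f, hf0, hf⟩ := Submodule.exists_le_ker_of_lt_top _ (lt_top_iff_ne_top.2 hne)
  have key : ∀ X : Matrix ι ι k, f X = ∑ i, ∑ j, X i j * f (Matrix.single i j 1) := by
    intro X
    conv_lhs => rw [Matrix.matrix_eq_sum_single X]
    simp only [map_sum]
    refine Finset.sum_congr rfl fun i _ => Finset.sum_congr rfl fun j _ => ?_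
    have : Matrix.single i j (X i j) = X i j • Matrix.single i j (1 : k) := by
      rw [Matrix.smul_single, smul_eq_mul, mul_one]
    rw [this, map_smul, smul_eq_mul]
  let fK : Matrix ι ι K →ₗ[K] K :=
    ∑ i, ∑ j, (algebraMap k K (f (Matrix.single i j 1))) • Matrix.entryLinearMap K K i j
  have hfK : ∀ X : Matrix ι ι K,
      fK X = ∑ i, ∑ j, algebraMap k K (f (Matrix.single i j 1)) * X i j := by
    intro X
    simp only [fK, LinearMap.sum_apply, LinearMap.smul_apply, Matrix.entryLinearMap_apply,
      smul_eq_mul]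
  have hle : Submodule.span K (Set.range fun g => (M g).map (algebraMap k K)) ≤ LinearMap.ker fK := by
    rw [Submodule.span_le]
    rintro _ ⟨g, rfl⟩
    have h0 : f (M g) = 0 := hf (Submodule.subset_span ⟨g, rfl⟩)
    rw [SetLike.mem_coe, LinearMap.mem_ker, hfK]
    rw [key] at h0
    have := congrArg (algebraMap k K) h0
    rw [map_zero, map_sum] at this
    rw [← this]
    refine Finset.sum_congr rfl fun i _ => ?_
    rw [map_sum]
    refine Finset.sum_congr rfl fun j _ => ?_
    change _ * algebraMap k K (M g i j) = _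
    rw [map_mul, mul_comm]
  rw [h, top_le_iff, LinearMap.ker_eq_top] at hle
  apply hf0
  apply LinearMap.ext
  intro X
  rw [key, LinearMap.zero_apply]
  refine Finset.sum_eq_zero fun i _ => Finset.sum_eq_zero fun j _ => ?_
  have h1 : fK (Matrix.single i j 1) = 0 := by rw [hle]; rfl
  rw [hfK] at h1
  have h2 : algebraMap k K (f (Matrix.single i j 1)) = 0 := by
    rw [← h1]
    symm
    rw [Finset.sum_eq_single i, Finset.sum_eq_single j]
    · simp
    · intro j' _ hj'
      simp [Ne.symm hj']
    · intro h; exact absurd (Finset.mem_univ _) h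
    · intro i' _ hi'
      refine Finset.sum_eq_zero fun j' _ => ?_
      simp [Ne.symm hi']
    · intro h; exact absurd (Finset.mem_univ _) h
  rw [(map_eq_zero _).1 h2, mul_zero]


/-- A matrix with all entries in an ideal lies in `I • ⊤`. -/
theorem mem_smul_top_of_entries {T : Type*} [CommRing T] {ι : Type*} [Fintype ι] [DecidableEq ι]
    (I : Ideal T) (Z : Matrix ι ι T) (hZ : ∀ i j, Z i j ∈ I) :
    Z ∈ I • (⊤ : Submodule T (Matrix ι ι T)) := by
  rw [Matrix.matrix_eq_sum_single Z]
  refine Submodule.sum_mem _ fun i _ => Submodule.sum_mem _ fun j _ => ?_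
  have : Matrix.single i j (Z i j) = Z i j • Matrix.single i j (1 : T) := by
    rw [Matrix.smul_single, smul_eq_mul, mul_one]
  rw [this]
  exact Submodule.smul_mem_smul (hZ i j) Submodule.mem_top

/-- Nakayama: a family of matrices over a local ring spans all matrices as soon as its reduction
spans all matrices over the residue field. -/
theorem span_eq_top_of_residue {T : Type*} [CommRing T] [IsLocalRing T] {ι : Type*} [Fintype ι]
    [DecidableEq ι] {G : Type*} (M : G → Matrix ι ι T)
    (h : Submodule.span (IsLocalRing.ResidueField T)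
      (Set.range fun g => (M g).map (algebraMap T (IsLocalRing.ResidueField T))) = ⊤) :
    Submodule.span T (Set.range M) = ⊤ := by
  rw [eq_top_iff]
  refine Submodule.le_of_le_smul_of_le_jacobson_bot (I := IsLocalRing.maximalIdeal T)
    Module.Finite.fg_top (IsLocalRing.jacobson_eq_maximalIdeal ⊥ bot_ne_top).ge ?_
  intro X _
  have hT : Submodule.span T
      (Set.range fun g => (M g).map (algebraMap T (IsLocalRing.ResidueField T))) = ⊤ := by
    rw [← Submodule.restrictScalars_span T (IsLocalRing.ResidueField T)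
      IsLocalRing.residue_surjective, h]
    rfl
  have hX : X.map (algebraMap T (IsLocalRing.ResidueField T)) ∈ Submodule.span T
      (Set.range fun g => (M g).map (algebraMap T (IsLocalRing.ResidueField T))) := by
    rw [hT]; trivial
  -- lift a linear combination
  obtain ⟨c, hc⟩ := (Finsupp.mem_span_range_iff_exists_finsupp).1 hX
  let Y : Matrix ι ι T := c.sum fun g t => t • M g
  have hY : Y ∈ Submodule.span T (Set.range M) :=
    Submodule.sum_mem _ fun g _ => Submodule.smul_mem _ _ (Submodule.subset_span ⟨g, rfl⟩)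
  have hXY : ∀ i j, (X - Y) i j ∈ IsLocalRing.maximalIdeal T := by
    intro i j
    have h1 : (X.map (algebraMap T (IsLocalRing.ResidueField T))) i j
        = (Y.map (algebraMap T (IsLocalRing.ResidueField T))) i j := by
      rw [← hc]
      simp only [Y, Finsupp.sum, Matrix.map_apply, Matrix.sum_apply, Matrix.smul_apply, map_sum,
        smul_eq_mul, map_mul]
      exact Finset.sum_congr rfl fun g _ => by rw [Algebra.smul_def]
    rw [Matrix.map_apply, Matrix.map_apply] at h1
    rw [Matrix.sub_apply, ← IsLocalRing.residue_eq_zero_iff, map_sub, sub_eq_zero]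
    exact h1
  have : X = Y + (X - Y) := by abel
  rw [this]
  exact Submodule.add_mem_sup hY (mem_smul_top_of_entries _ _ hXY)

/-- Nondegeneracy of the trace form on matrices. -/
theorem eq_zero_of_trace_mul_span {T : Type*} [CommRing T] {ι : Type*} [Fintype ι]
    [DecidableEq ι] {G : Type*} (M : G → Matrix ι ι T)
    (hM : Submodule.span T (Set.range M) = ⊤) (a : Matrix ι ι T)
    (h : ∀ g, (a * M g).trace = 0) : a = 0 := by
  let φ : Matrix ι ι T →ₗ[T] T := Matrix.traceLinearMap ι T T ∘ₗ LinearMap.mulLeft T a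
  have hle : Submodule.span T (Set.range M) ≤ LinearMap.ker φ := by
    rw [Submodule.span_le]
    rintro _ ⟨g, rfl⟩
    exact h g
  rw [hM, top_le_iff, LinearMap.ker_eq_top] at hle
  ext i j
  have h1 : φ (Matrix.single j i 1) = 0 := by rw [hle]; rfl
  have h2 : φ (Matrix.single j i 1) = a i j := by
    simp only [φ, LinearMap.comp_apply, LinearMap.mulLeft_apply, Matrix.traceLinearMap_apply]
    rw [Matrix.trace_mul_comm, Matrix.trace]
    simp only [Matrix.diag_apply, Matrix.mul_apply, Matrix.single_apply]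
    rw [Finset.sum_eq_single j]
    · rw [Finset.sum_eq_single i]
      · simp
      · intro b _ hb
        simp [Ne.symm hb]
      · simp
    · intro b _ hb
      refine Finset.sum_eq_zero fun x _ => ?_
      simp [Ne.symm hb]
    · simp
  rw [← h2, h1]; rfl

end Matrices

section Local

variable {T : Type*} [CommRing T] [IsLocalRing T] {V : Type*} [AddCommGroup V] [Module T V]
  [Module.Free T V] [Module.Finite T V] {G : Type*} [Monoid G]

local notation "kk" => IsLocalRing.ResidueField T
local notation "KK" => AlgebraicClosure (IsLocalRing.ResidueField T)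

omit [Module.Free T V] in
/-- Over a local ring: if the residual family is absolutely irreducible, then the family spans
`End_T V`. Matrix form with respect to a basis. -/
theorem span_toMatrix_eq_top [Nontrivial V] (ρ : G →* Module.End T V)
    (habs : ∀ U : Submodule KK (KK ⊗[kk] (kk ⊗[T] V)),
      (∀ g, ∀ x ∈ U, ((ρ g).baseChange kk).baseChange KK x ∈ U) → U = ⊥ ∨ U = ⊤)
    {ι : Type*} [Fintype ι] [DecidableEq ι] (b : Module.Basis ι T V) :
    Submodule.span T (Set.range fun g => LinearMap.toMatrix b b (ρ g)) = ⊤ := by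
  have : Nonempty ι := b.index_nonempty
  let bk : Module.Basis ι kk (kk ⊗[T] V) := Algebra.TensorProduct.basis kk b
  let bK : Module.Basis ι KK (KK ⊗[kk] (kk ⊗[T] V)) := Algebra.TensorProduct.basis KK bk
  have : Nontrivial (KK ⊗[kk] (kk ⊗[T] V)) :=
    ⟨⟨bK (Classical.arbitrary ι), 0, bK.ne_zero _⟩⟩
  let ρK : G →* Module.End KK (KK ⊗[kk] (kk ⊗[T] V)) :=
    { toFun := fun g => ((ρ g).baseChange kk).baseChange KK
      map_one' := by rw [map_one, LinearMap.baseChange_one, LinearMap.baseChange_one]
      map_mul' := fun g h => by rw [map_mul, LinearMap.baseChange_mul, LinearMap.baseChange_mul] }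
  have hB := span_range_eq_top_of_irreducible ρK habs
  apply span_eq_top_of_residue
  apply span_eq_top_of_map (K := KK)
  have hmat : ∀ g, LinearMap.toMatrix bK bK (ρK g)
      = ((LinearMap.toMatrix b b (ρ g)).map (algebraMap T kk)).map (algebraMap kk KK) := by
    intro g
    change LinearMap.toMatrix bK bK (((ρ g).baseChange kk).baseChange KK) = _
    rw [LinearMap.toMatrix_baseChange, LinearMap.toMatrix_baseChange]
  have hmap := congrArg (Submodule.map (LinearMap.toMatrix bK bK).toLinearMap) hB
  rw [Submodule.map_span, Submodule.map_top, LinearMap.range_eq_top.2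
    (LinearMap.toMatrix bK bK).surjective] at hmap
  rw [← hmap]
  congr 1
  ext X
  constructor
  · rintro ⟨g, rfl⟩
    exact ⟨ρK g, ⟨g, rfl⟩, hmat g⟩
  · rintro ⟨_, ⟨g, rfl⟩, rfl⟩
    exact ⟨g, (hmat g).symm⟩

/-- Over a local ring: an endomorphism which is trace-orthogonal to a residually absolutely
irreducible family of endomorphisms is zero. -/
theorem eq_zero_of_trace_mul_eq_zero [Nontrivial V] (ρ : G →* Module.End T V)
    (habs : ∀ U : Submodule KK (KK ⊗[kk] (kk ⊗[T] V)),
      (∀ g, ∀ x ∈ U, ((ρ g).baseChange kk).baseChange KK x ∈ U) → U = ⊥ ∨ U = ⊤)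
    (a : Module.End T V) (h : ∀ g, LinearMap.trace T V (a * ρ g) = 0) : a = 0 := by
  classical
  let b := Module.Free.chooseBasis T V
  have hspan := span_toMatrix_eq_top ρ habs b
  have h0 : LinearMap.toMatrix b b a = 0 := by
    refine eq_zero_of_trace_mul_span _ hspan _ fun g => ?_
    rw [← LinearMap.toMatrix_mul, ← LinearMap.trace_eq_matrix_trace T b]
    exact h g
  exact (LinearMap.toMatrix b b).injective (h0.trans (map_zero _).symm)

/-- The form used for S31: if `tr ρ(τ g) = tr ρ(g)` for all `g`, then `ρ τ = 1`. -/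
theorem eq_one_of_trace_mul_eq [Nontrivial V] (ρ : G →* Module.End T V)
    (habs : ∀ U : Submodule KK (KK ⊗[kk] (kk ⊗[T] V)),
      (∀ g, ∀ x ∈ U, ((ρ g).baseChange kk).baseChange KK x ∈ U) → U = ⊥ ∨ U = ⊤)
    (τ : G) (h : ∀ g, LinearMap.trace T V (ρ (τ * g)) = LinearMap.trace T V (ρ g)) :
    ρ τ = 1 := by
  have := eq_zero_of_trace_mul_eq_zero ρ habs (ρ τ - 1) fun g => by
    rw [sub_mul, one_mul, map_sub, ← map_mul, h g, sub_self]
  exact sub_eq_zero.1 this

end Local

section Lucas

/-- Lucas polynomials `V_j(X, d)`: `V_0 = 2`, `V_1 = X`, `V_{j+2} = X V_{j+1} - d V_j`. -/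
noncomputable def lucas (d : ℤ) : ℕ → Polynomial ℤ
  | 0 => 2
  | 1 => X
  | (j + 2) => X * lucas d (j + 1) - C d * lucas d j

@[simp] theorem lucas_zero (d : ℤ) : lucas d 0 = 2 := by rw [lucas]
@[simp] theorem lucas_one (d : ℤ) : lucas d 1 = X := by rw [lucas]
theorem lucas_add_two (d : ℤ) (j : ℕ) :
    lucas d (j + 2) = X * lucas d (j + 1) - C d * lucas d j := by rw [lucas]

variable {T : Type*} [CommRing T] {V : Type*} [AddCommGroup V] [Module T V]
  [Module.Free T V] [Module.Finite T V]

/-- The trace of an endomorphism with characteristic polynomial `X² - sX + d` is `s`. -/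
theorem trace_eq_of_charpoly (f : Module.End T V) (s d : T) (hrank : Module.finrank T V = 2)
    (hchar : f.charpoly = X ^ 2 - C s * X + C d) : LinearMap.trace T V f = s := by
  nontriviality T
  classical
  let b := Module.Free.chooseBasis T V
  rw [LinearMap.trace_eq_matrix_trace T b, Matrix.trace_eq_neg_charpoly_nextCoeff,
    LinearMap.charpoly_toMatrix, Polynomial.nextCoeff, LinearMap.charpoly_natDegree, hrank,
    if_neg (by norm_num), hchar]
  simp [Polynomial.coeff_X_pow, Polynomial.coeff_C]

/-- Lucas: if `f` has characteristic polynomial `X² - sX + d` on a free module of rank `2`, then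
`tr (f ^ j) = V_j(s, d)`. -/
theorem trace_pow_eq_aeval_lucas (f : Module.End T V) (s : T) (d : ℤ)
    (hrank : Module.finrank T V = 2) (hchar : f.charpoly = X ^ 2 - C s * X + C (d : T)) (j : ℕ) :
    LinearMap.trace T V (f ^ j) = Polynomial.aeval s (lucas d j) := by
  have hCH : f ^ 2 = s • f - (d : T) • (1 : Module.End T V) := by
    have h := LinearMap.aeval_self_charpoly f
    rw [hchar] at h
    simp only [map_add, map_sub, map_mul, map_pow, aeval_X, aeval_C] at h
    rw [Algebra.algebraMap_eq_smul_one, Algebra.algebraMap_eq_smul_one, smul_mul_assoc, one_mul]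
      at h
    rw [← sub_eq_zero, ← h]; abel
  have key : ∀ j, LinearMap.trace T V (f ^ j) = Polynomial.aeval s (lucas d j) ∧
      LinearMap.trace T V (f ^ (j + 1)) = Polynomial.aeval s (lucas d (j + 1)) := by
    intro j
    induction j with
    | zero =>
      refine ⟨?_, ?_⟩
      · rw [pow_zero, LinearMap.trace_one, hrank, lucas_zero, map_ofNat]; norm_num
      · rw [zero_add, pow_one, lucas_one, aeval_X]
        exact trace_eq_of_charpoly f s d hrank hchar
    | succ j ih =>
      refine ⟨ih.2, ?_⟩
      have : f ^ (j + 1 + 1) = s • f ^ (j + 1) - (d : T) • f ^ j := by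
        rw [show j + 1 + 1 = j + 2 from rfl, pow_add, hCH, mul_sub, mul_smul_comm, mul_smul_comm,
          mul_one, ← pow_succ]
      rw [this, map_sub, map_smul, map_smul, ih.1, ih.2, lucas_add_two]
      simp only [map_sub, map_mul, aeval_X, smul_eq_mul, eq_intCast, map_intCast]
  exact (key j).1

end Lucas

section LucasAction

variable {G J : Type*} [Group G] [AddCommGroup J] [DistribMulAction G J]

/-- Lucas on a module: if `σ² - tσ + d = 0` on a `σ^{±1}`-stable part `P` of `J`, then
`V_j(t, d) = σ^j + d^j σ^{-j}` on `P`. -/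
theorem aeval_lucas_apply (σ : G) (t : Module.End ℤ J) (d : ℤ) (P : J → Prop)
    (hσ : ∀ x, P x → P (σ • x)) (hσ' : ∀ x, P x → P (σ⁻¹ • x))
    (hrel : ∀ x, P x → σ • σ • x - t (σ • x) + d • x = 0) (j : ℕ) (x : J) (hx : P x) :
    Polynomial.aeval t (lucas d j) x = σ ^ j • x + d ^ j • (σ ^ j)⁻¹ • x := by
  have ht : ∀ y, P y → t y = σ • y + d • σ⁻¹ • y := by
    intro y hy
    have h := hrel (σ⁻¹ • y) (hσ' y hy)
    rw [smul_inv_smul] at h
    have h' : (σ • y + d • σ⁻¹ • y) - t y = 0 := by rw [← h]; abel
    exact (sub_eq_zero.1 h').symm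
  have hpow : ∀ (j : ℕ) (y : J), P y → P (σ ^ j • y) ∧ P ((σ ^ j)⁻¹ • y) := by
    intro j
    induction j with
    | zero => intro y hy; simpa using hy
    | succ j ih =>
      intro y hy
      refine ⟨?_, ?_⟩
      · rw [pow_succ', mul_smul]; exact hσ _ (ih y hy).1
      · rw [pow_succ, mul_inv_rev, mul_smul]; exact hσ' _ (ih y hy).2
  have key : ∀ j, (Polynomial.aeval t (lucas d j) x = σ ^ j • x + d ^ j • (σ ^ j)⁻¹ • x) ∧
      (Polynomial.aeval t (lucas d (j + 1)) x
        = σ ^ (j + 1) • x + d ^ (j + 1) • (σ ^ (j + 1))⁻¹ • x) := by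
    intro j
    induction j with
    | zero =>
      refine ⟨?_, ?_⟩
      · rw [lucas_zero, map_ofNat]
        simp [two_smul]
      · rw [zero_add, lucas_one, aeval_X]
        simp only [pow_one]
        exact ht x hx
    | succ j ih =>
      refine ⟨ih.2, ?_⟩
      rw [show j + 1 + 1 = j + 2 from rfl, lucas_add_two, map_sub, map_mul, map_mul, aeval_X,
        LinearMap.sub_apply, Module.End.mul_apply, Module.End.mul_apply, ih.1, ih.2, map_add,
        map_zsmul, ht _ (hpow (j + 1) x hx).1, ht _ (hpow (j + 1) x hx).2]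
      have e1 : σ • σ ^ (j + 1) • x = σ ^ (j + 2) • x := by rw [← mul_smul, ← pow_succ']
      have e2 : σ⁻¹ • σ ^ (j + 1) • x = σ ^ j • x := by
        rw [← mul_smul, pow_succ', inv_mul_cancel_left]
      have e3 : σ • (σ ^ (j + 1))⁻¹ • x = (σ ^ j)⁻¹ • x := by
        rw [← mul_smul, pow_succ, mul_inv_rev, mul_inv_cancel_left]
      have e4 : σ⁻¹ • (σ ^ (j + 1))⁻¹ • x = (σ ^ (j + 2))⁻¹ • x := by
        rw [← mul_smul, ← mul_inv_rev, ← pow_succ]
      rw [e1, e2, e3, e4]
      have e5 : (Polynomial.aeval t (C d)) (σ ^ j • x + d ^ j • (σ ^ j)⁻¹ • x)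
          = d • (σ ^ j • x + d ^ j • (σ ^ j)⁻¹ • x) := by
        rw [aeval_C, Module.algebraMap_end_apply]
      rw [e5]
      generalize σ ^ (j + 2) • x = a
      generalize σ ^ j • x = b
      generalize (σ ^ j)⁻¹ • x = c
      generalize (σ ^ (j + 2))⁻¹ • x = e
      have h1 : d ^ (j + 1) * d = d ^ (j + 2) := by ring
      have h2 : d * d ^ j = d ^ (j + 1) := by ring
      simp only [smul_add, smul_smul]
      rw [h1, h2]
      abel
  exact (key j).1

end LucasAction

section Misc

variable {T : Type*} [CommRing T]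

/-- An endomorphism of a finite free module mapping everything into `I • ⊤` has trace in `I`. -/
theorem trace_mem_of_forall_mem_smul_top {V : Type*} [AddCommGroup V] [Module T V]
    [Module.Free T V] [Module.Finite T V] (I : Ideal T) (f : Module.End T V)
    (hf : ∀ v, f v ∈ I • (⊤ : Submodule T V)) : LinearMap.trace T V f ∈ I := by
  classical
  let b := Module.Free.chooseBasis T V
  have hrepr : ∀ x ∈ I • (⊤ : Submodule T V), ∀ i, b.repr x i ∈ I := by
    intro x hx i
    refine Submodule.smul_induction_on (p := fun x => b.repr x i ∈ I) hx ?_ ?_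
    · intro a ha v _
      rw [map_smul, Finsupp.smul_apply, smul_eq_mul]
      exact Ideal.mul_mem_right _ _ ha
    · intro x y hx hy
      rw [map_add, Finsupp.add_apply]
      exact Ideal.add_mem _ hx hy
  rw [LinearMap.trace_eq_matrix_trace T b, Matrix.trace]
  refine Ideal.sum_mem _ fun i _ => ?_
  rw [Matrix.diag_apply, LinearMap.toMatrix_apply]
  exact hrepr _ (hf _) i

/-- Separatedness, in ideal form. -/
theorem eq_zero_of_forall_mem_pow (I : Ideal T) [IsHausdorff I T] (x : T)
    (h : ∀ n : ℕ, x ∈ I ^ n) : x = 0 := by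
  refine IsHausdorff.haus ‹_› x fun n => ?_
  rw [SModEq.zero, smul_eq_mul, Ideal.mul_top]
  exact h n

/-- Bounded denominators: for a subgroup `𝕋` of a finitely generated abelian group there is `c`
with `p ^ k • y ∈ 𝕋 → p ^ c • y ∈ 𝕋` for all `k ≥ c`. -/
theorem exists_pow_smul_mem {E : Type*} [AddCommGroup E] [Module.Finite ℤ E] (𝕋 : AddSubgroup E)
    (p : ℕ) (hp : p.Prime) :
    ∃ c : ℕ, ∀ (k : ℕ) (y : E), c ≤ k → (p ^ k : ℤ) • y ∈ 𝕋 → (p ^ c : ℤ) • y ∈ 𝕋 := by
  classical
  let Sat : Submodule ℤ E :=
    { carrier := {y | ∃ m : ℤ, m ≠ 0 ∧ m • y ∈ 𝕋}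
      add_mem' := by
        rintro a b ⟨m, hm, hma⟩ ⟨n, hn, hnb⟩
        refine ⟨m * n, mul_ne_zero hm hn, ?_⟩
        rw [smul_add, mul_comm, mul_smul, mul_comm, mul_smul]
        exact 𝕋.add_mem (𝕋.zsmul_mem hma _) (𝕋.zsmul_mem hnb _)
      zero_mem' := ⟨1, one_ne_zero, by rw [smul_zero]; exact 𝕋.zero_mem⟩
      smul_mem' := by
        rintro a y ⟨m, hm, hmy⟩
        refine ⟨m, hm, ?_⟩
        rw [smul_comm]
        exact 𝕋.zsmul_mem hmy _ }
  have hSat : ∀ y, y ∈ Sat ↔ ∃ m : ℤ, m ≠ 0 ∧ m • y ∈ 𝕋 := fun y => Iff.rfl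
  obtain ⟨s, hs⟩ : Sat.FG := IsNoetherian.noetherian Sat
  let mf : E → ℤ := fun y => if h : y ∈ Sat then Classical.choose ((hSat y).1 h) else 1
  have hmf0 : ∀ y, mf y ≠ 0 := by
    intro y
    by_cases h : y ∈ Sat
    · simp only [mf, dif_pos h]; exact (Classical.choose_spec ((hSat y).1 h)).1
    · simp only [mf, dif_neg h]; exact one_ne_zero
  have hmf : ∀ y ∈ Sat, mf y • y ∈ 𝕋 := by
    intro y h
    simp only [mf, dif_pos h]; exact (Classical.choose_spec ((hSat y).1 h)).2
  let m : ℤ := ∏ y ∈ s, mf y
  have hm0 : m ≠ 0 := Finset.prod_ne_zero_iff.2 fun y _ => hmf0 y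
  have hm : ∀ y ∈ Sat, m • y ∈ 𝕋 := by
    intro y hy
    rw [← hs] at hy
    induction hy using Submodule.span_induction with
    | mem y hy =>
      have hyS : y ∈ Sat := by rw [← hs]; exact Submodule.subset_span hy
      have : m = (∏ z ∈ s.erase y, mf z) * mf y := by
        rw [Finset.prod_erase_mul _ _ hy]
      rw [this, mul_smul]
      exact 𝕋.zsmul_mem (hmf y hyS) _
    | zero => rw [smul_zero]; exact 𝕋.zero_mem
    | add a b _ _ ha hb => rw [smul_add]; exact 𝕋.add_mem ha hb
    | smul a y _ hy => rw [smul_comm]; exact 𝕋.zsmul_mem hy _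
  obtain ⟨c, m', hm', hmeq⟩ := Nat.exists_eq_pow_mul_and_not_dvd (Int.natAbs_ne_zero.2 hm0) p
    hp.ne_one
  refine ⟨c, fun k y hck hy => ?_⟩
  have hySat : y ∈ Sat := ⟨(p : ℤ) ^ k, pow_ne_zero _ (Int.natCast_ne_zero.2 hp.ne_zero), hy⟩
  have h1 : ((p : ℤ) ^ c * (m' : ℤ)) • y ∈ 𝕋 := by
    have habs : ((m.natAbs : ℕ) : ℤ) • y ∈ 𝕋 := by
      rcases Int.natAbs_eq m with h | h
      · rw [← h]; exact hm y hySat
      · have := 𝕋.neg_mem (hm y hySat)
        rw [← neg_smul] at this
        rw [Int.natCast_natAbs, abs_eq_neg_self.2 (by rw [h]; simp)]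
        exact this
    rw [hmeq] at habs
    push_cast at habs
    exact habs
  have hcop : IsCoprime ((p : ℤ) ^ (k - c)) (m' : ℤ) := by
    have : Nat.Coprime (p ^ (k - c)) m' :=
      Nat.Coprime.pow_left _ ((Nat.Prime.coprime_iff_not_dvd hp).2 hm')
    have := Nat.isCoprime_iff_coprime.2 this
    push_cast at this
    exact this
  obtain ⟨a, b, hab⟩ := hcop
  have : ((p : ℤ) ^ c) • y = a • ((p : ℤ) ^ k • y) + b • (((p : ℤ) ^ c * (m' : ℤ)) • y) := by
    rw [smul_smul, smul_smul, ← add_smul]
    congr 1
    have hk : (p : ℤ) ^ k = (p : ℤ) ^ (k - c) * (p : ℤ) ^ c := by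
      rw [← pow_add, Nat.sub_add_cancel hck]
    rw [hk]
    calc (p : ℤ) ^ c = (a * (p : ℤ) ^ (k - c) + b * (m' : ℤ)) * (p : ℤ) ^ c := by rw [hab, one_mul]
      _ = _ := by ring
  rw [this]
  exact 𝕋.add_mem (𝕋.zsmul_mem hy _) (𝕋.zsmul_mem h1 _)

end Misc

section Prelude

variable {T : Type} [CommRing T] [IsLocalRing T]

/-- Prelude form: a residually absolutely irreducible `GaloisRepAdic` is trivial at `τ` as soon
as `tr ρ(τ g) = tr ρ(g)` for all `g`. -/
theorem galoisRepAdic_eq_one_of_trace (ρ : GaloisRepAdic T)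
    (habs : ρ.residual.IsAbsolutelyIrreducible)
    (τ : AlgebraicClosure ℚ ≃ₐ[ℚ] AlgebraicClosure ℚ)
    (h : ∀ g, ρ.trace (τ * g) = ρ.trace g) : ρ.ρ τ = 1 := by
  have : Nontrivial ρ.V :=
    Module.nontrivial_of_finrank_pos (R := T) (by rw [ρ.finrank_eq]; norm_num)
  exact eq_one_of_trace_mul_eq ρ.ρ habs τ h

end Prelude

end Fermat.Agent.S31.Alg
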