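import Mathlib
import Fermat.Prelude.Def_CuspForm_HeckeGaloisRepDatum
import Fermat.Prelude.Def_ModularCurve_HeckeModule

/-!
# S31: the one Hecke-side contract (owner: helper79)

`HeckeShift N S p` ("transfer with a shift"): there is `c` such that for every `k` there is a
finite set `Λ` of `p^k`-torsion points of `J₀(N)(ℚ̄)` with the property: if two polynomials in
single Hecke operators `T_ℓ`, `T_ℓ'` (`ℓ, ℓ' ∉ S`, prime to `N`) agree on `Λ`, then the
corresponding elements of the Hecke algebra of weight-2 cusp forms differ by an element of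
`p ^ (k - c) • heckeAlgebra N 2 S`.

Providers: `Λ = λ_{p^k}(L / p^k L)` (image of the parabolic cohomology lattice) or `Λ = J[p^k]`.
-/

set_option autoImplicit false

open ModularCurve CuspForm

namespace Fermat.Agent.S31.Plan

/-- Transfer with a shift, from `p^k`-torsion of `J₀(N)` to the Hecke algebra of cusp forms. -/
def HeckeShift (N : ℕ) [NeZero N] (S : Set ℕ) (p : ℕ) : Prop :=
  ∃ c : ℕ, ∀ k : ℕ, ∃ Λ : Set (JZero N), Λ.Finite ∧ (∀ x ∈ Λ, p ^ k • x = 0) ∧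
    ∀ (ℓ ℓ' : ℕ) (hℓ : ℓ.Prime) (hℓ' : ℓ'.Prime) (hℓN : ¬ ℓ ∣ N) (hℓ'N : ¬ ℓ' ∣ N)
      (hℓS : ℓ ∉ S) (hℓ'S : ℓ' ∉ S) (Q Q' : Polynomial ℤ),
      (∀ x ∈ Λ, Polynomial.aeval (heckeOperatorBar N ⟨ℓ, hℓ⟩) Q x
        = Polynomial.aeval (heckeOperatorBar N ⟨ℓ', hℓ'⟩) Q' x) →
      ∃ R : heckeAlgebra N 2 S,
        Polynomial.aeval (heckeAlgebra.T hℓ hℓN hℓS : heckeAlgebra N 2 S) Q
            - Polynomial.aeval (heckeAlgebra.T hℓ' hℓ'N hℓ'S : heckeAlgebra N 2 S) Q'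
          = ((p : ℤ) ^ (k - c)) • R

end Fermat.Agent.S31.Plan
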