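import Mathlib
import Fermat.Agent.S31.Alg
import Fermat.Agent.S31.Plan
import Fermat.Agent.P5.Per.Action

/-!
# S31: transfer with a shift, from the parabolic lattice (owner: helper79)

`LambdaStmt N S p` : for every `k` there is an additive map `λ : Lat N → J₀(N)(ℚ̄)` from the
parabolic lattice `Lat N = parabolicHoms ℤ Γ₀(N) ℤ`, with values in the `p^k`-torsion, whose
kernel is contained in `p^k • Lat N`, and which intertwines `T^coh_ℓ` with the Hecke
correspondence `heckeOperatorBar N ℓ` for the primes `ℓ ∉ S`, `ℓ ∤ N`.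

`heckeShift_of_lambda` : `LambdaStmt N S p → Plan.HeckeShift N S p` (for `S` containing the primes
dividing `N`), using the faithful action `P5.Per.heckeAct` of the Hecke algebra of cusp forms on
the lattice and the bounded-denominators lemma `Alg.exists_pow_smul_mem`.
-/

set_option autoImplicit false

open ModularCurve CuspForm Polynomial

namespace Fermat.Agent.S31.Shift

open Fermat.Agent.P5.Per

/-- The lattice-to-torsion map `λ_{p^k}`, as a contract. -/
def LambdaStmt (N : ℕ) [NeZero N] (S : Set ℕ) (p : ℕ) : Prop :=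
  ∀ k : ℕ, ∃ lam : Lat N →+ JZero N,
    (∀ φ, p ^ k • lam φ = 0) ∧
    (∀ φ, lam φ = 0 → ∃ ψ : Lat N, φ = ((p : ℤ) ^ k) • ψ) ∧
    ∀ (ℓ : ℕ) (hℓ : ℓ.Prime) (hℓN : ¬ ℓ ∣ N), ℓ ∉ S → ∀ φ : Lat N,
      lam (tcohL N hℓ hℓN φ) = heckeOperatorBar N ⟨ℓ, hℓ⟩ (lam φ)

/-- An additive map intertwining two endomorphisms intertwines their polynomials. -/
theorem map_aeval_apply {M M' : Type*} [AddCommGroup M] [AddCommGroup M'] (f : M →+ M')
    (A : Module.End ℤ M) (B : Module.End ℤ M') (h : ∀ m, f (A m) = B (f m)) (Q : ℤ[X]) (m : M) :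
    f (aeval A Q m) = aeval B Q (f m) := by
  induction Q using Polynomial.induction_on generalizing m with
  | C a =>
    rw [aeval_C, aeval_C, Module.algebraMap_end_apply, Module.algebraMap_end_apply, map_zsmul]
  | add P Q hP hQ =>
    rw [map_add, map_add, LinearMap.add_apply, LinearMap.add_apply, map_add, hP, hQ]
  | monomial n a ih =>
    have e1 : aeval A (C a * X ^ (n + 1)) = aeval A (C a * X ^ n) * A := by
      rw [pow_succ, ← mul_assoc, map_mul, aeval_X]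
    have e2 : aeval B (C a * X ^ (n + 1)) = aeval B (C a * X ^ n) * B := by
      rw [pow_succ, ← mul_assoc, map_mul, aeval_X]
    rw [e1, e2, Module.End.mul_apply, Module.End.mul_apply, ih, h]

variable {N : ℕ} [NeZero N] {S : Set ℕ} {p : ℕ}

set_option maxHeartbeats 1600000 in
/-- **Transfer with a shift from the lattice map.** -/
theorem heckeShift_of_lambda (hNS : ∀ q : ℕ, q.Prime → q ∣ N → q ∈ S) (hp : p.Prime)
    (h : LambdaStmt N S p) : Plan.HeckeShift N S p := by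
  classical
  have := lat_finite N
  have := lat_free N
  have : Module.Finite ℤ (Module.End ℤ (Lat N)) := Module.Finite.linearMap ℤ ℤ (Lat N) (Lat N)
  let 𝕋 : AddSubgroup (Module.End ℤ (Lat N)) := (heckeAct N S hNS).range.toAddSubgroup
  obtain ⟨c, hc⟩ := Alg.exists_pow_smul_mem 𝕋 p hp
  refine ⟨c, fun k => ?_⟩
  obtain ⟨lam, htors, hker, hheck⟩ := h k
  refine ⟨Set.range lam, ?_, ?_, ?_⟩
  · -- finiteness of the image
    let R : Submodule ℤ (JZero N) := LinearMap.range lam.toIntLinearMap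
    have : Module.Finite ℤ R := Module.Finite.range _
    have htorsR : Module.IsTorsion ℤ R := by
      rintro ⟨x, φ, rfl⟩
      refine ⟨⟨(p : ℤ) ^ k, ?_⟩, ?_⟩
      · exact mem_nonZeroDivisors_of_ne_zero (pow_ne_zero _ (Int.natCast_ne_zero.2 hp.ne_zero))
      · apply Subtype.ext
        have := htors φ
        simp only [Submonoid.mk_smul, Submodule.coe_smul, Submodule.coe_zero]
        rw [← this]
        exact_mod_cast (natCast_zsmul (lam φ) (p ^ k))
    have : Finite R := Module.finite_of_fg_torsion R htorsR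
    have hfin : (R : Set (JZero N)).Finite := Set.toFinite _
    refine hfin.subset ?_
    rintro _ ⟨φ, rfl⟩
    exact ⟨φ, rfl⟩
  · rintro _ ⟨φ, rfl⟩
    exact htors φ
  · intro ℓ ℓ' hℓ hℓ' hℓN hℓ'N hℓS hℓ'S Q Q' hQ
    set t : heckeAlgebra N 2 S :=
      aeval (heckeAlgebra.T hℓ hℓN hℓS : heckeAlgebra N 2 S) Q
        - aeval (heckeAlgebra.T hℓ' hℓ'N hℓ'S : heckeAlgebra N 2 S) Q' with ht
    have hT : ∀ (ℓ : ℕ) (hℓ : ℓ.Prime) (hℓN : ¬ ℓ ∣ N) (hℓS : ℓ ∉ S),
        heckeAct N S hNS (heckeAlgebra.T hℓ hℓN hℓS) = tcohL N hℓ hℓN := by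
      intro ℓ hℓ hℓN hℓS
      exact LinearMap.ext fun ψ => Subtype.ext (heckeAct_T N S hNS hℓ hℓN hℓS ψ)
    have haev : ∀ (ℓ : ℕ) (hℓ : ℓ.Prime) (hℓN : ¬ ℓ ∣ N) (hℓS : ℓ ∉ S) (Q : ℤ[X]),
        heckeAct N S hNS (aeval (heckeAlgebra.T hℓ hℓN hℓS : heckeAlgebra N 2 S) Q)
          = aeval (tcohL N hℓ hℓN) Q := by
      intro ℓ hℓ hℓN hℓS Q
      have := Polynomial.aeval_algHom_apply (heckeAct N S hNS).toIntAlgHom
        (heckeAlgebra.T hℓ hℓN hℓS : heckeAlgebra N 2 S) Q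
      rw [← hT ℓ hℓ hℓN hℓS]
      exact this.symm
    have hX : ∀ φ : Lat N, lam (heckeAct N S hNS t φ) = 0 := by
      intro φ
      rw [ht, map_sub, haev, haev, LinearMap.sub_apply, map_sub,
        map_aeval_apply lam (tcohL N hℓ hℓN) (heckeOperatorBar N ⟨ℓ, hℓ⟩)
          (hheck ℓ hℓ hℓN hℓS) Q φ,
        map_aeval_apply lam (tcohL N hℓ' hℓ'N) (heckeOperatorBar N ⟨ℓ', hℓ'⟩)
          (hheck ℓ' hℓ' hℓ'N hℓ'S) Q' φ, hQ (lam φ) ⟨φ, rfl⟩, sub_self]
    have hdiv : ∀ φ : Lat N, ∃ ψ : Lat N, heckeAct N S hNS t φ = ((p : ℤ) ^ k) • ψ :=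
      fun φ => hker _ (hX φ)
    let b := Module.Free.chooseBasis ℤ (Lat N)
    let Y : Module.End ℤ (Lat N) := b.constr ℤ fun i => (hdiv (b i)).choose
    have hXY : heckeAct N S hNS t = ((p : ℤ) ^ k) • Y := by
      refine b.ext fun i => ?_
      rw [LinearMap.smul_apply, Module.Basis.constr_basis]
      exact (hdiv (b i)).choose_spec
    by_cases hck : c ≤ k
    · have hmem : ((p : ℤ) ^ k) • Y ∈ 𝕋 := ⟨t, hXY⟩
      obtain ⟨R, hR⟩ := hc k Y hck hmem
      refine ⟨R, heckeAct_injective N S hNS ?_⟩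
      have hR' : heckeAct N S hNS R = ((p : ℤ) ^ c) • Y := hR
      have e1 : heckeAct N S hNS (((p : ℤ) ^ (k - c)) • R)
          = ((p : ℤ) ^ (k - c)) • heckeAct N S hNS R := by
        rw [zsmul_eq_mul, map_mul, map_intCast, zsmul_eq_mul]
      have e2 : ((p : ℤ) ^ (k - c)) • (((p : ℤ) ^ c) • Y) = ((p : ℤ) ^ k) • Y := by
        rw [smul_smul, ← pow_add, Nat.sub_add_cancel hck]
      exact hXY.trans (e2.symm.trans ((congrArg (fun Z => ((p : ℤ) ^ (k - c)) • Z) hR').symm.trans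
        e1.symm))
    · refine ⟨t, ?_⟩
      rw [Nat.sub_eq_zero_of_le (le_of_not_ge hck), pow_zero, one_smul]

/-- The same, from a family of lattice maps in the shape produced by the junction block
`[LAMBDA]` (`ℕ`-scalars, Hecke-equivariance written with the subtype constructor). -/
theorem heckeShift_of_exists_lam (hNS : ∀ q : ℕ, q.Prime → q ∣ N → q ∈ S) (hp : p.Prime)
    (h : ∀ k : ℕ, ∃ lam : Lat N →+ JZero N,
      (∀ φ, p ^ k • lam φ = 0) ∧
      (∀ φ, lam φ = 0 → ∃ φ' : Lat N, φ = p ^ k • φ') ∧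
      ∀ (ℓ : ℕ) (hℓ : ℓ.Prime) (hℓN : ¬ ℓ ∣ N) (φ : Lat N),
        heckeOperatorBar N ⟨ℓ, hℓ⟩ (lam φ)
          = lam ⟨tcoh N hℓ hℓN ℤ φ, tcoh_mem_parabolicHoms_int N hℓ hℓN φ.2⟩) :
    Plan.HeckeShift N S p := by
  refine heckeShift_of_lambda hNS hp fun k => ?_
  obtain ⟨lam, h1, h2, h3⟩ := h k
  refine ⟨lam, h1, fun φ hφ => ?_, fun ℓ hℓ hℓN _ φ => (h3 ℓ hℓ hℓN φ).symm⟩
  obtain ⟨φ', hφ'⟩ := h2 φ hφ
  refine ⟨φ', ?_⟩
  rw [hφ', ← Nat.cast_pow, natCast_zsmul]

end Fermat.Agent.S31.Shift
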