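import Mathlib
import Fermat.Agent.S31.Alg
import Fermat.Agent.S31.Plan
import Fermat.Agent.S37.Core
import Fermat.Agent.P5.CycloDelta
import Fermat.Agent.P5.WeakChebLift
import Fermat.Agent.P5.OpenStab

/-!
# S31 in hypothesis form (owner: helper79)

`result_of_plan` : the frozen S31 statement (a Hecke–Galois datum is unramified outside `S`)
from

* `S37.Core.CoreAll N p`            — Eichler–Shimura on `p`-power torsion of `J₀(N)` (S37 core),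
* `P5.WeakChebLift.WeakChebStmt`    — weak Chebotarev,
* `Plan.HeckeShift N S p`           — transfer with a shift,

together with the landed `P5/OpenStab` (open stabilisers), `P5/CycloDelta` (roots of unity under
Frobenius and inertia) and the algebra of `S31/Alg`.
-/

set_option autoImplicit false

open ModularCurve CuspForm AlgebraicCurve Polynomial

namespace Fermat.Agent.S31.Top

local notation "Qb" => AlgebraicClosure ℚ

local instance isAlgebraicQbar_s31 : Algebra.IsAlgebraic ℚ (AlgebraicClosure ℚ) :=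
  AlgebraicClosure.isAlgebraic ℚ
local instance isAlgClosureQbar_s31 : IsAlgClosure ℚ (AlgebraicClosure ℚ) :=
  ⟨inferInstance, inferInstance⟩
local instance normalQbar_s31 : Normal ℚ (AlgebraicClosure ℚ) :=
  IsAlgClosure.normal ℚ (AlgebraicClosure ℚ)

section Aux

/-- Traces of two Galois elements agreeing on the level of `ρ mod 𝔪^n` are congruent mod `𝔪^n`. -/
theorem trace_sub_mem_of_agree {T : Type} [CommRing T] [IsLocalRing T] (ρ : GaloisRepAdic T)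
    (n : ℕ) (L : IntermediateField ℚ Qb)
    (hL : ∀ σ : Qb ≃ₐ[ℚ] Qb, (∀ x ∈ L, σ x = x) →
      ∀ v : ρ.V, ρ.ρ σ v - v ∈ (IsLocalRing.maximalIdeal T ^ n) • (⊤ : Submodule T ρ.V))
    (a b : Qb ≃ₐ[ℚ] Qb) (hab : ∀ x ∈ L, a x = b x) :
    ρ.trace a - ρ.trace b ∈ IsLocalRing.maximalIdeal T ^ n := by
  have hη : ∀ x ∈ L, (b⁻¹ * a) x = x := by
    intro x hx
    rw [AlgEquiv.mul_apply, hab x hx, AlgEquiv.aut_inv]
    exact b.symm_apply_apply x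
  have hfac : ρ.ρ a = ρ.ρ b * ρ.ρ (b⁻¹ * a) := by rw [← map_mul, mul_inv_cancel_left]
  have hdiff : ρ.trace a - ρ.trace b
      = LinearMap.trace T ρ.V (ρ.ρ b * (ρ.ρ (b⁻¹ * a) - 1)) := by
    rw [mul_sub, mul_one, map_sub, ← hfac]; rfl
  rw [hdiff]
  apply Alg.trace_mem_of_forall_mem_smul_top
  intro v
  rw [Module.End.mul_apply, LinearMap.sub_apply, Module.End.one_apply]
  have h1 := hL _ hη v
  refine Submodule.smul_induction_on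
    (p := fun w => ρ.ρ b w ∈ (IsLocalRing.maximalIdeal T ^ n) • (⊤ : Submodule T ρ.V)) h1 ?_ ?_
  · intro r hr w _
    rw [map_smul]
    exact Submodule.smul_mem_smul hr Submodule.mem_top
  · intro x y hx hy
    rw [map_add]
    exact Submodule.add_mem _ hx hy

/-- Powers of a Frobenius at `ℓ ≠ p` on `p`-power roots of unity. -/
theorem frob_pow_apply (p : ℕ) [Fact p.Prime] {ℓ : ℕ} (hℓ : ℓ.Prime) (hℓp : ℓ ≠ p)
    (A : ValuationSubring Qb) (hA : A.LiesOverPrime ℓ) (σ : Qb ≃ₐ[ℚ] Qb)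
    (hσ : A.IsFrobeniusAt σ ℓ) (k j : ℕ) (ζ : Qb) (hζ : ζ ^ p ^ k = 1) :
    (σ ^ j) ζ = ζ ^ (ℓ ^ j) := by
  induction j generalizing ζ with
  | zero => simp
  | succ j ih =>
    rw [pow_succ, AlgEquiv.mul_apply,
      P5.CycloDelta.frob_apply_rootOfUnity p hℓ hℓp A hA σ hσ k ζ hζ,
      ih (ζ ^ ℓ) (by rw [← pow_mul, mul_comm, pow_mul, hζ, one_pow]), ← pow_mul, pow_succ']

/-- Equal powers of a primitive `m`-th root of unity act equally on `m`-torsion. -/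
theorem zsmul_eq_of_pow_eq {J : Type*} [AddCommGroup J] {R : Type*} [CommRing R]
    (ζ : R) (m : ℕ) (hm : m ≠ 0) (hζ : IsPrimitiveRoot ζ m) (a b : ℕ) (h : ζ ^ a = ζ ^ b) (y : J)
    (hy : m • y = 0) : (a : ℤ) • y = (b : ℤ) • y := by
  have hmod : a ≡ b [MOD m] := by
    obtain ⟨u, rfl⟩ := hζ.isUnit hm
    have hu : IsPrimitiveRoot u m := IsPrimitiveRoot.coe_units_iff.1 hζ
    have h' : u ^ a = u ^ b := Units.ext (by simpa using h)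
    rw [hu.eq_orderOf]
    exact pow_eq_pow_iff_modEq.1 h'
  obtain ⟨t, ht⟩ := (Int.natCast_modEq_iff.2 hmod).dvd
  have : (b : ℤ) • y - (a : ℤ) • y = 0 := by
    rw [← sub_smul, ht, mul_comm, mul_smul, natCast_zsmul, hy, smul_zero]
  exact (sub_eq_zero.1 this).symm

/-- A Galois element preserves a normal intermediate field. -/
theorem apply_mem_of_normal (M : IntermediateField ℚ Qb) [Normal ℚ M] (g : Qb ≃ₐ[ℚ] Qb) {y : Qb}
    (hy : y ∈ M) : g y ∈ M := by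
  have h := AlgEquiv.restrictNormal_commutes g M ⟨y, hy⟩
  have h' : g y = ((g.restrictNormal M ⟨y, hy⟩ : M) : Qb) := h.symm
  rw [h']
  exact (g.restrictNormal M ⟨y, hy⟩).2

end Aux

section Main

variable {p : ℕ} {N : ℕ} [NeZero N]

omit [NeZero N] in
theorem gal_smul_zero (η : Qb ≃ₐ[ℚ] Qb) : η • (0 : JZero N) = 0 :=
  smul_zero (A := JZero N) η

/-- `V_j(T_ℓ, ℓ) x = g x + ℓ^j g⁻¹ x` for a `p`-power torsion point `x` fixed by `Gal(ℚ̄/M)`,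
when `g` agrees on the normal level `M` with the `j`-th power of a Frobenius at `ℓ ∤ N p`. -/
theorem aeval_lucas_eq (hcore : S37.Core.CoreAll N p) {ℓ : ℕ} (hℓ : ℓ.Prime)
    (hℓNp : ¬ ℓ ∣ N * p) (A : ValuationSubring Qb) (hA : A.LiesOverPrime ℓ) (σ : Qb ≃ₐ[ℚ] Qb)
    (hσ : A.IsFrobeniusAt σ ℓ) (j : ℕ) (g : Qb ≃ₐ[ℚ] Qb) (M : IntermediateField ℚ Qb)
    [Normal ℚ M] (hj : ∀ x ∈ M, (σ ^ j) x = g x) (x : JZero N) (hxt : ∃ m : ℕ, p ^ m • x = 0)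
    (hxfix : ∀ η : Qb ≃ₐ[ℚ] Qb, (∀ y ∈ M, η y = y) → η • x = x) :
    aeval (heckeOperatorBar N ⟨ℓ, hℓ⟩) (Alg.lucas ℓ j) x = g • x + ((ℓ : ℤ) ^ j) • g⁻¹ • x := by
  have hstab : ∀ (η : Qb ≃ₐ[ℚ] Qb) (x : JZero N), (∃ m : ℕ, p ^ m • x = 0) →
      ∃ m : ℕ, p ^ m • (η • x) = 0 := by
    rintro η x ⟨m, hm⟩
    exact ⟨m, by rw [smul_comm, hm]; exact gal_smul_zero η⟩
  have h := Alg.aeval_lucas_apply σ (heckeOperatorBar N ⟨ℓ, hℓ⟩) (ℓ : ℤ)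
    (fun x : JZero N => ∃ m : ℕ, p ^ m • x = 0) (hstab σ) (hstab σ⁻¹)
    (fun x hx => by
      have := (hcore ℓ hℓ hℓNp A hA).2 σ hσ x hx
      rwa [natCast_zsmul]) j x hxt
  rw [h]
  have e1 : σ ^ j • x = g • x := by
    have := hxfix (g⁻¹ * σ ^ j) (fun y hy => by
      rw [AlgEquiv.mul_apply, hj y hy, AlgEquiv.aut_inv]
      exact g.symm_apply_apply y)
    rw [mul_smul] at this
    exact inv_smul_eq_iff.1 this
  have e2 : (σ ^ j)⁻¹ • x = g⁻¹ • x := by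
    have := hxfix (σ ^ j * g⁻¹) (fun y hy => by
      rw [AlgEquiv.mul_apply, hj _ (apply_mem_of_normal M g⁻¹ hy), AlgEquiv.aut_inv]
      exact g.apply_symm_apply y)
    rw [mul_smul] at this
    exact inv_smul_eq_iff.2 this.symm
  rw [e1, e2]

variable {S : Finset ℕ}
  {𝒪 : Type} [CommRing 𝒪] [IsDomain 𝒪] [IsDiscreteValuationRing 𝒪]
  [IsAdicComplete (IsLocalRing.maximalIdeal 𝒪) 𝒪]
  {θ : CuspForm.heckeAlgebra N 2 (↑S : Set ℕ) →+* IsLocalRing.ResidueField 𝒪}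
  {T : Type} [CommRing T] [IsLocalRing T] [IsNoetherianRing T]
  [IsAdicComplete (IsLocalRing.maximalIdeal T) T] [Algebra 𝒪 T] [IsLocalHom (algebraMap 𝒪 T)]
  [Module.Finite 𝒪 T] [Module.Free 𝒪 T]

/-- **S31 from the plan.** -/
theorem result_of_plan [HasPrincipalDivisors Qb (modularFunctionFieldBar N)]
    (hcore : S37.Core.CoreAll N p) (hcheb : P5.WeakChebLift.WeakChebStmt)
    (hHS : Plan.HeckeShift N (↑S : Set ℕ) p)
    (hp : p.Prime) (hp𝒪 : (p : 𝒪) ∈ IsLocalRing.maximalIdeal 𝒪) (hpS : p ∈ S)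
    (hNS : ∀ q : ℕ, q.Prime → q ∣ N → q ∈ S)
    (H : CuspForm.HeckeGaloisRepDatum N (↑S : Set ℕ) 𝒪 θ T)
    (q : ℕ) (hq : q.Prime) (hqS : q ∉ S) :
    H.ρ.IsUnramifiedAt q := by
  have : Fact p.Prime := ⟨hp⟩
  intro P hP τ hτ
  refine Alg.galoisRepAdic_eq_one_of_trace H.ρ H.residual_absIrr τ fun g => ?_
  rw [← sub_eq_zero]
  refine Alg.eq_zero_of_forall_mem_pow (IsLocalRing.maximalIdeal T) _ fun n => ?_
  obtain ⟨c, hc⟩ := hHS
  obtain ⟨Λ, hΛfin, hΛtors, hΛ⟩ := hc (n + c)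
  obtain ⟨L₁, hL₁fin, hL₁⟩ := H.ρ.isAdicContinuous n
  obtain ⟨L₂, hL₂fin, hL₂normal, hL₂⟩ := P5.OpenStab.exists_normal_fixing_jzero_finite N hΛfin
  -- the common finite Galois level
  let M₀ : IntermediateField ℚ Qb := L₁ ⊔ L₂ ⊔ P5.CycloDelta.level p (n + c)
  have : FiniteDimensional ℚ ↥(L₁ ⊔ L₂) := IntermediateField.finiteDimensional_sup L₁ L₂
  have : FiniteDimensional ℚ M₀ :=
    IntermediateField.finiteDimensional_sup (L₁ ⊔ L₂) (P5.CycloDelta.level p (n + c))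
  let M : IntermediateField ℚ Qb := IntermediateField.normalClosure ℚ M₀ Qb
  have : FiniteDimensional ℚ M := normalClosure.is_finiteDimensional ℚ M₀ Qb
  have : Normal ℚ M := normalClosure.normal ℚ M₀ Qb
  have : IsGalois ℚ M := ⟨⟩
  have hM₀ : M₀ ≤ M := IntermediateField.le_normalClosure M₀
  have hL₁M : L₁ ≤ M := le_trans (le_trans le_sup_left le_sup_left) hM₀
  have hL₂M : L₂ ≤ M := le_trans (le_trans le_sup_right le_sup_left) hM₀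
  have hL₃M : P5.CycloDelta.level p (n + c) ≤ M := le_trans le_sup_right hM₀
  -- arithmetic of the primes
  have hqp : q ≠ p := fun h => hqS (h ▸ hpS)
  have hqN : ¬ q ∣ N := fun h => hqS (hNS q hq h)
  have hnotdvd : ∀ ℓ : ℕ, ℓ.Prime → ℓ ∉ S → ℓ ≠ p ∧ ¬ ℓ ∣ N ∧ ¬ ℓ ∣ N * p := by
    intro ℓ hℓ hℓS
    have h1 : ℓ ≠ p := fun h => hℓS (h ▸ hpS)
    have h2 : ¬ ℓ ∣ N := fun h => hℓS (hNS ℓ hℓ h)
    exact ⟨h1, h2, fun h => (hℓ.dvd_mul.1 h).elim h2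
      (fun h' => h1 ((Nat.prime_dvd_prime_iff_eq hℓ hp).1 h'))⟩
  -- inertia acts trivially on `p`-power torsion
  have hτtriv : ∀ x : JZero N, (∃ m : ℕ, p ^ m • x = 0) → τ • x = x :=
    (hcore q hq (hnotdvd q hq hqS).2.2 P hP).1 τ hτ
  have hτinvtriv : ∀ x : JZero N, (∃ m : ℕ, p ^ m • x = 0) → τ⁻¹ • x = x :=
    (hcore q hq (hnotdvd q hq hqS).2.2 P hP).1 τ⁻¹ ((P.inertiaSubgroupIn ℚ).inv_mem hτ)
  -- weak Chebotarev, twice
  obtain ⟨ℓ, hℓ, hℓS, A, hA, σ, hσ, j, hj⟩ := hcheb M g S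
  obtain ⟨ℓ', hℓ', hℓ'S, A', hA', σ', hσ', j', hj'⟩ := hcheb M (τ * g) S
  obtain ⟨hℓp, hℓN, hℓNp⟩ := hnotdvd ℓ hℓ hℓS
  obtain ⟨hℓ'p, hℓ'N, hℓ'Np⟩ := hnotdvd ℓ' hℓ' hℓ'S
  have hℓS' : ℓ ∉ (↑S : Set ℕ) := fun h => hℓS (Finset.mem_coe.1 h)
  have hℓ'S' : ℓ' ∉ (↑S : Set ℕ) := fun h => hℓ'S (Finset.mem_coe.1 h)
  -- a primitive root of unity and the congruence `ℓ^j ≡ ℓ'^j' mod p^(n+c)`
  have : NeZero (p ^ (n + c) : ℕ) := ⟨pow_ne_zero _ hp.ne_zero⟩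
  obtain ⟨ζ, hζ⟩ := HasEnoughRootsOfUnity.exists_primitiveRoot Qb (p ^ (n + c))
  have hζ1 : ζ ^ p ^ (n + c) = 1 := hζ.pow_eq_one
  have hζM : ζ ∈ M := hL₃M (P5.CycloDelta.mem_level p hζ1)
  have hpow : ζ ^ (ℓ ^ j) = ζ ^ (ℓ' ^ j') := by
    have h1 : g ζ = ζ ^ (ℓ ^ j) := by
      rw [← hj ζ hζM]; exact frob_pow_apply p hℓ hℓp A hA σ hσ (n + c) j ζ hζ1
    have h2 : (τ * g) ζ = ζ ^ (ℓ' ^ j') := by
      rw [← hj' ζ hζM]; exact frob_pow_apply p hℓ' hℓ'p A' hA' σ' hσ' (n + c) j' ζ hζ1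
    have h3 : (τ * g) ζ = ζ ^ (ℓ ^ j) := by
      rw [AlgEquiv.mul_apply, h1]
      exact P5.CycloDelta.inertia_apply_rootOfUnity p hq hqp P hP τ hτ (n + c) _
        (by rw [← pow_mul, mul_comm, pow_mul, hζ1, one_pow])
    exact h3.symm.trans h2
  -- the two Hecke polynomials agree on `Λ`
  have hJ : ∀ x ∈ Λ, aeval (heckeOperatorBar N ⟨ℓ, hℓ⟩) (Alg.lucas ℓ j) x
      = aeval (heckeOperatorBar N ⟨ℓ', hℓ'⟩) (Alg.lucas ℓ' j') x := by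
    intro x hx
    have hxt : ∃ m : ℕ, p ^ m • x = 0 := ⟨n + c, hΛtors x hx⟩
    have hxfix : ∀ η : Qb ≃ₐ[ℚ] Qb, (∀ y ∈ M, η y = y) → η • x = x :=
      fun η hη => hL₂ η (fun y hy => hη y (hL₂M hy)) x hx
    rw [aeval_lucas_eq hcore hℓ hℓNp A hA σ hσ j g M hj x hxt hxfix,
      aeval_lucas_eq hcore hℓ' hℓ'Np A' hA' σ' hσ' j' (τ * g) M hj' x hxt hxfix]
    have hgx : ∃ m : ℕ, p ^ m • (g • x) = 0 :=
      ⟨n + c, by rw [smul_comm, hΛtors x hx]; exact gal_smul_zero g⟩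
    rw [mul_smul, hτtriv (g • x) hgx, mul_inv_rev, mul_smul, hτinvtriv x hxt]
    congr 1
    have := zsmul_eq_of_pow_eq ζ (p ^ (n + c)) (pow_ne_zero _ hp.ne_zero) hζ (ℓ ^ j) (ℓ' ^ j')
      hpow (g⁻¹ • x) (by rw [smul_comm, hΛtors x hx]; exact gal_smul_zero g⁻¹)
    push_cast at this
    exact this
  obtain ⟨R, hR⟩ := hΛ ℓ ℓ' hℓ hℓ' hℓN hℓ'N hℓS' hℓ'S' (Alg.lucas ℓ j) (Alg.lucas ℓ' j') hJ
  -- traces
  have ht1 : H.ρ.trace g - H.ρ.trace (σ ^ j) ∈ IsLocalRing.maximalIdeal T ^ n :=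
    trace_sub_mem_of_agree H.ρ n L₁ hL₁ g (σ ^ j) fun x hx => (hj x (hL₁M hx)).symm
  have ht2 : H.ρ.trace (τ * g) - H.ρ.trace (σ' ^ j') ∈ IsLocalRing.maximalIdeal T ^ n :=
    trace_sub_mem_of_agree H.ρ n L₁ hL₁ (τ * g) (σ' ^ j') fun x hx => (hj' x (hL₁M hx)).symm
  have htr : ∀ (ℓ : ℕ) (hℓ : ℓ.Prime) (hℓN : ¬ ℓ ∣ N) (hℓS : ℓ ∉ (↑S : Set ℕ))
      (A : ValuationSubring Qb) (_ : A.LiesOverPrime ℓ) (σ : Qb ≃ₐ[ℚ] Qb)
      (_ : A.IsFrobeniusAt σ ℓ) (j : ℕ),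
      H.ρ.trace (σ ^ j) = H.π (aeval (heckeAlgebra.T hℓ hℓN hℓS : heckeAlgebra N 2 (↑S : Set ℕ))
        (Alg.lucas ℓ j)) := by
    intro ℓ hℓ hℓN hℓS A hA σ hσ j
    have h := Alg.trace_pow_eq_aeval_lucas (H.ρ.ρ σ) (H.π (heckeAlgebra.T hℓ hℓN hℓS)) (ℓ : ℤ)
      H.ρ.finrank_eq (by rw [H.charpoly_frob ℓ hℓ hℓN hℓS A hA σ hσ]; simp) j
    rw [GaloisRepAdic.trace, map_pow, h]
    exact Polynomial.aeval_algHom_apply (H.π.toIntAlgHom) _ _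
  have hpT : (p : T) ∈ IsLocalRing.maximalIdeal T := by
    have : (p : T) = algebraMap 𝒪 T (p : 𝒪) := (map_natCast _ _).symm
    rw [this, IsLocalRing.mem_maximalIdeal, mem_nonunits_iff]
    intro hu
    exact (IsLocalRing.mem_maximalIdeal _).1 hp𝒪 (isUnit_of_map_unit (algebraMap 𝒪 T) _ hu)
  have ht5 : H.π (aeval (heckeAlgebra.T hℓ hℓN hℓS' : heckeAlgebra N 2 (↑S : Set ℕ))
        (Alg.lucas ℓ j))
      - H.π (aeval (heckeAlgebra.T hℓ' hℓ'N hℓ'S' : heckeAlgebra N 2 (↑S : Set ℕ))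
        (Alg.lucas ℓ' j')) ∈ IsLocalRing.maximalIdeal T ^ n := by
    rw [← map_sub, hR, Nat.add_sub_cancel, zsmul_eq_mul, map_mul, map_intCast]
    push_cast
    exact Ideal.mul_mem_right _ _ (Ideal.pow_mem_pow hpT n)
  have hfinal : H.ρ.trace (τ * g) - H.ρ.trace g
      = (H.ρ.trace (τ * g) - H.ρ.trace (σ' ^ j')) - (H.ρ.trace g - H.ρ.trace (σ ^ j))
        - (H.π (aeval (heckeAlgebra.T hℓ hℓN hℓS' : heckeAlgebra N 2 (↑S : Set ℕ))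
            (Alg.lucas ℓ j))
          - H.π (aeval (heckeAlgebra.T hℓ' hℓ'N hℓ'S' : heckeAlgebra N 2 (↑S : Set ℕ))
            (Alg.lucas ℓ' j'))) := by
    rw [htr ℓ hℓ hℓN hℓS' A hA σ hσ j, htr ℓ' hℓ' hℓ'N hℓ'S' A' hA' σ' hσ' j']
    ring
  rw [hfinal]
  exact Ideal.sub_mem _ (Ideal.sub_mem _ ht2 ht1) ht5

end Main

end Fermat.Agent.S31.Top
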