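import Mathlib
import Fermat.Agent.S31.Top
import Fermat.Agent.S31.Shift
import Fermat.Agent.P5.Plan
import Fermat.Agent.Lib.WeakCheb.Final
import Fermat.Agent.S37.HeckeInputs

/-!
# S31 from the two remaining block contracts (owner: helper79)

`result_of_blocks` : the frozen S31 statement from

* `S37.Core.CoreAll N p`  (block [G1], the S37 program), and
* `P5.Plan.LambdaStmt N`  (block [LAMBDA], the analytic core of P5).

Weak Chebotarev (`Lib.WeakCheb.weakChebotarev`) and the principal-divisor instance of the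
modular function field (`S37.HeckeInputs.hasPrincipalDivisors_FN`) are unconditional.
-/

set_option autoImplicit false

open ModularCurve CuspForm CuspForm.HeckeGaloisRepDatum

namespace Fermat.Agent.S31.Final

/-- The Hecke transfer with a shift, from the top-level `[LAMBDA]` contract of P5. -/
theorem heckeShift_of_planLambda {N : ℕ} [NeZero N] {S : Set ℕ} {p : ℕ}
    (hNS : ∀ q : ℕ, q.Prime → q ∣ N → q ∈ S) (hp : p.Prime)
    (h : Fermat.Agent.P5.Plan.LambdaStmt N) : Plan.HeckeShift N S p := by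
  obtain ⟨lam, h1, h2, -, h4⟩ := h
  refine Shift.heckeShift_of_lambda hNS hp fun k =>
    ⟨lam (p ^ k), h1 _, fun φ hφ => ?_, fun ℓ hℓ hℓN _ φ => h4 _ ℓ hℓ hℓN φ⟩
  obtain ⟨ψ, hψ⟩ := h2 (p ^ k) φ (pow_pos hp.pos k) hφ
  refine ⟨ψ, ?_⟩
  rw [hψ, ← Nat.cast_pow, natCast_zsmul]

variable {p : ℕ} {N : ℕ} [NeZero N] {S : Finset ℕ}
  {𝒪 : Type} [CommRing 𝒪] [IsDomain 𝒪] [IsDiscreteValuationRing 𝒪]
  [IsAdicComplete (IsLocalRing.maximalIdeal 𝒪) 𝒪]
  {θ : CuspForm.heckeAlgebra N 2 (↑S : Set ℕ) →+* IsLocalRing.ResidueField 𝒪}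
  {T : Type} [CommRing T] [IsLocalRing T] [IsNoetherianRing T]
  [IsAdicComplete (IsLocalRing.maximalIdeal T) T] [Algebra 𝒪 T] [IsLocalHom (algebraMap 𝒪 T)]
  [Module.Finite 𝒪 T] [Module.Free 𝒪 T]

/-- **The frozen S31 from `CoreAll` and `LambdaStmt`.** -/
theorem result_of_blocks (hcore : Fermat.Agent.S37.Core.CoreAll N p)
    (hlam : Fermat.Agent.P5.Plan.LambdaStmt N)
    (hp : p.Prime) (hp𝒪 : (p : 𝒪) ∈ IsLocalRing.maximalIdeal 𝒪) (hpS : p ∈ S)
    (hNS : ∀ q : ℕ, q.Prime → q ∣ N → q ∈ S)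
    (H : CuspForm.HeckeGaloisRepDatum N (↑S : Set ℕ) 𝒪 θ T)
    (q : ℕ) (hq : q.Prime) (hqS : q ∉ S) :
    H.ρ.IsUnramifiedAt q :=
  haveI := Fermat.Agent.S37.HeckeInputs.hasPrincipalDivisors_FN N
  Top.result_of_plan hcore Fermat.Agent.Lib.WeakCheb.weakChebotarev
    (heckeShift_of_planLambda hNS hp hlam) hp hp𝒪 hpS hNS H q hq hqS

end Fermat.Agent.S31.Final
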